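/-
Functions separating the cusps at level `Γ(q^j m)`, with `q` in the maximal ideal of the base and
`m ≥ 3` prime to `q`.
-/
import Fermat.Agent.Moduli.CuspPoint

set_option autoImplicit false
set_option linter.unusedSectionVars false

noncomputable section

namespace Fermat.Agent.Carayol.CuspQ

open UpperHalfPlane CongruenceSubgroup IsLocalRing
open Fermat.Agent.GalRep Fermat.Agent.GalRep.Level Fermat.Agent.ModField
open Fermat.Agent.GalRep.Model (NZ PM pSer zetaC rowMul)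
open Fermat.Agent.CuspPt (zO map_zO zO_zero zO_mul zO_congr rz rz_ne_zero phiO pI constantCoeff_pI
  cS constantCoeff_cS wS exists_wS zF fShift_zF toLS_zF serF_eq serAt_def serAt_wF cuspInt
  mem_chartRing_of_cuspInt cB serB serB_eq algebraMap_serB evc evc_neg c0 wF)
open scoped MatrixGroups

variable {O : Type} [CommRing O] [IsDomain O] [IsDiscreteValuationRing O] {M q j m : ℕ} [NeZero M]

/-- Level `M = q^j m` with `q` in the maximal ideal and `m ≥ 3` prime to `q`. -/
structure QSetup (O : Type) [CommRing O] [IsLocalRing O] (M q j m : ℕ) : Prop where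
  prime : q.Prime
  level : M = q ^ j * m
  pos : 0 < j
  notDvd : ¬ q ∣ m
  three_le : 3 ≤ m
  mem : (q : O) ∈ maximalIdeal O

variable (h : QSetup O M q j m) (E : Emb O M)

include h in
theorem dvd_level : (m : ℤ) ∣ (M : ℤ) := ⟨((q ^ j : ℕ) : ℤ), by rw [h.level]; push_cast; ring⟩

include h in
theorem m_lt : m < M := by
  have h1 : 2 ≤ q ^ j := le_trans h.prime.two_le (Nat.le_self_pow h.pos.ne' q)
  have := h.three_le
  have := h.level
  nlinarith

include h in
theorem nzSub {u : ℤ × ℤ} (hu : NZ m u) : NZ M u := fun hd =>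
  hu ⟨(dvd_level h).trans hd.1, (dvd_level h).trans hd.2⟩

include h in
theorem nzRow {u : ℤ × ℤ} (hu : NZ m u) (g : SL(2, ℤ)) : NZ m (rowMul u g) := by
  haveI : NeZero m := ⟨by have := h.three_le; omega⟩
  exact nz_rowMul hu g

include h in
theorem not_m_dvd_one : ¬ (m : ℤ) ∣ 1 := by
  rw [← Nat.cast_one, Int.natCast_dvd_natCast]
  intro h1
  have := Nat.le_of_dvd one_pos h1
  have := h.three_le
  omega

include h in
theorem not_M_dvd {k : ℕ} (hk0 : 0 < k) (hk : k < M) : ¬ (M : ℤ) ∣ k := by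
  rw [Int.natCast_dvd_natCast]
  intro h1
  have := Nat.le_of_dvd hk0 h1
  omega

include h in
theorem isUnit_natCast : IsUnit (m : O) := by
  by_contra hu
  have hm : (m : O) ∈ maximalIdeal O := (mem_maximalIdeal _).mpr hu
  obtain ⟨x, y, hxy⟩ := Int.isCoprime_iff_nat_coprime.mpr
    (show Nat.Coprime (Int.natAbs q) (Int.natAbs m) by
      simpa using h.prime.coprime_iff_not_dvd.mpr h.notDvd)
  have h1 : (1 : O) ∈ maximalIdeal O := by
    have e : ((x : O) * q + (y : O) * m) = 1 := by exact_mod_cast congrArg (fun k : ℤ => (k : O)) hxy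
    rw [← e]
    exact add_mem (Ideal.mul_mem_left _ _ h.mem) (Ideal.mul_mem_left _ _ hm)
  exact (mem_maximalIdeal _).mp h1 isUnit_one

include h in
theorem isUnit_one_sub_zO {a : ℤ} (ha : ¬ (m : ℤ) ∣ a) : IsUnit (1 - zO E a) := by
  haveI : NeZero m := ⟨by have := h.three_le; omega⟩
  set Q := q ^ j with hQ
  have hζ : E.φ (zO E Q) = zetaC m := by
    rw [map_zO, zpow_natCast, zetaC, zetaC, ← Complex.exp_nat_mul]
    congr 1
    have hq : (Q : ℂ) ≠ 0 := by exact_mod_cast pow_ne_zero j h.prime.ne_zero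
    have hm : (m : ℂ) ≠ 0 := by exact_mod_cast NeZero.ne m
    rw [h.level, ← hQ]
    push_cast
    field_simp
  let C : Model.Cyc O m := ⟨E.φ, E.inj, zO E Q, hζ, isUnit_natCast h⟩
  have hu := C.isUnit_one_sub ha
  have e : ((C.z ^ a : Oˣ) : O) = zO E (a * Q) := E.inj (by
    rw [map_zO, mul_comm a, zpow_mul, ← map_zO E (Q : ℤ)]
    have h2 := congrArg Units.val (map_zpow (Units.map (E.φ : O →* ℂ)) C.z a)
    rw [Units.coe_map, Units.val_zpow_eq_zpow_val, Units.coe_map] at h2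
    refine h2.trans ?_
    simp [Model.Cyc.z, C])
  rw [e, zO_mul] at hu
  have hdvd : 1 - zO E a ∣ 1 - zO E a ^ Q := by
    simpa using sub_dvd_pow_sub_pow (1 : O) (zO E a) Q
  exact isUnit_of_dvd_unit hdvd hu

include h in
theorem phiO_mul {a : ℤ} (ha : ¬ (m : ℤ) ∣ a) : phiO E a * (1 - zO E a) ^ 2 = zO E a := by
  rw [phiO, mul_assoc, Ring.inverse_mul_cancel _ ((isUnit_one_sub_zO h E ha).pow 2), mul_one]

include h in
theorem residue_phiO_ne_zero {a : ℤ} (ha : ¬ (m : ℤ) ∣ a) : residue O (phiO E a) ≠ 0 := fun h0 => by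
  have h1 := congrArg (residue O) (phiO_mul h E ha)
  rw [map_mul, h0, zero_mul] at h1
  exact rz_ne_zero E a h1.symm

include h in
theorem not_dvd_snd {u : ℤ × ℤ} (hu : NZ m u) (hd : (M : ℤ) ∣ u.1) : ¬ (m : ℤ) ∣ u.2 := fun h2 =>
  hu ⟨(dvd_level h).trans hd, h2⟩

include h in
theorem map_pI {u : ℤ × ℤ} (hu : NZ m u) :
    PowerSeries.map E.φ (pI E u) = pSer M (zetaC M) u := by
  ext n
  simp only [PowerSeries.coeff_map, pI, pSer, PowerSeries.coeff_mk, apply_ite E.φ, map_zero,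
    map_sum, map_mul, map_add, map_natCast, map_zO]
  refine if_congr Iff.rfl (ite_congr rfl (fun hd => ?_) fun _ => rfl) rfl
  have hb := not_dvd_snd h hu hd
  have hne : (E.φ ((1 - zO E u.2) ^ 2)) ≠ 0 :=
    (map_ne_zero_iff _ E.inj).mpr ((isUnit_one_sub_zO h E hb).pow 2).ne_zero
  have h2 := congrArg E.φ (phiO_mul h E hb)
  rw [map_mul, map_pow, map_sub, map_one, map_zO] at h2
  rw [map_pow, map_sub, map_one, map_zO] at hne
  rw [eq_div_iff hne]
  exact h2

local notation "al" => algebraMap (PowerSeries O) (Model.SeriesField O)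

include h in
theorem serAt_zF {u t : ℤ × ℤ} (hu : NZ m u) (ht : NZ m t) (g : SL(2, ℤ)) :
    serAt E g (zF E u t (nzSub h hu) (nzSub h ht)) =
      al (cS O M * (pI E (rowMul u g) - pI E (rowMul t g))) := by
  rw [serAt_def, fShift_zF]
  refine serF_eq E ?_
  rw [toLS_zF, map_mul, ← map_pI h E (nzRow h hu g), ← map_pI h E (nzRow h ht g),
    ← map_sub]
  rfl

include h in
theorem zF_mem_cuspInt {u t : ℤ × ℤ} (hu : NZ m u) (ht : NZ m t) :
    zF E u t (nzSub h hu) (nzSub h ht) ∈ cuspInt E :=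
  ⟨fun g => ⟨_, (serAt_zF h E hu ht g).symm⟩,
    1, by rw [pow_one, zF, mul_inv_cancel_left₀ (jF_ne_zero E)]; exact ⟨_, rfl⟩⟩

include h in
/-- A ratio as an element of the chart. -/
def zB (u t : ℤ × ℤ) (hu : NZ m u) (ht : NZ m t) : cB E :=
  ⟨zF E u t (nzSub h hu) (nzSub h ht), mem_chartRing_of_cuspInt E (zF_mem_cuspInt h E hu ht)⟩

theorem serB_zB {u t : ℤ × ℤ} (hu : NZ m u) (ht : NZ m t) (g : SL(2, ℤ)) :
    serB E g (zB h E u t hu ht) = cS O M * (pI E (rowMul u g) - pI E (rowMul t g)) :=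
  serB_eq E (serAt_zF h E hu ht g)

theorem constantCoeff_zB {u t : ℤ × ℤ} (hu : NZ m u) (ht : NZ m t) (g : SL(2, ℤ)) :
    PowerSeries.constantCoeff (serB E g (zB h E u t hu ht)) =
      (if (M : ℤ) ∣ (rowMul u g).1 then phiO E (rowMul u g).2 else 0) -
      (if (M : ℤ) ∣ (rowMul t g).1 then phiO E (rowMul t g).2 else 0) := by
  rw [serB_zB, map_mul, constantCoeff_cS, one_mul, map_sub, constantCoeff_pI, constantCoeff_pI]

theorem evc_zB {u t : ℤ × ℤ} (hu : NZ m u) (ht : NZ m t) (g : SL(2, ℤ)) :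
    evc E g (zB h E u t hu ht) = c0 E (rowMul u g) - c0 E (rowMul t g) := by
  show residue O (PowerSeries.constantCoeff (serB E g (zB h E u t hu ht))) = _
  rw [constantCoeff_zB, map_sub, c0, c0, apply_ite (residue O), apply_ite (residue O), map_zero]

include h in
theorem not_dvd_mul_unit {g : SL(2, ℤ)} (k : ℕ) (hk0 : 0 < k) (hk : k < M)
    (hg : (M : ℤ) ∣ g 1 0 ∨ (M : ℤ) ∣ g 0 0 + g 1 0) : ¬ (M : ℤ) ∣ (k : ℤ) * g 0 0 := by
  intro hd
  have hdet := g.det_coe
  rw [Matrix.det_fin_two] at hdet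
  refine not_M_dvd h hk0 hk ?_
  have e : (k : ℤ) = (k : ℤ) * g 0 0 * g 1 1 - (k : ℤ) * g 0 1 * g 1 0 := by
    linear_combination -(k : ℤ) * hdet
  rw [e]
  refine dvd_sub (hd.mul_right _) ?_
  rcases hg with hc | hc
  · exact hc.mul_left _
  · have e2 : (k : ℤ) * g 0 1 * g 1 0 =
        (k : ℤ) * g 0 1 * (g 0 0 + g 1 0) - (k : ℤ) * g 0 0 * g 0 1 := by ring
    rw [e2]
    exact dvd_sub (hc.mul_left _) (hd.mul_right _)

include h in
theorem nz10 : NZ m ((1 : ℤ), (0 : ℤ)) := fun hd => not_m_dvd_one h hd.1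

include h in
theorem nzm1 : NZ m ((m : ℤ), (1 : ℤ)) := fun hd => not_m_dvd_one h hd.2

include h in
theorem nz01 : NZ m ((0 : ℤ), (1 : ℤ)) := fun hd => not_m_dvd_one h hd.2

include h in
theorem nz11 : NZ m ((1 : ℤ), (1 : ℤ)) := fun hd => not_m_dvd_one h hd.1

/-- The function vanishing to order one at infinity. -/
def zX : cB E := zB h E _ _ (nz10 h) (nzm1 h)

/-- The companion function. -/
def zY : cB E := zB h E _ _ (nz01 h) (nz11 h)

theorem constantCoeff_zX {g : SL(2, ℤ)} (hg : (M : ℤ) ∣ g 1 0 ∨ (M : ℤ) ∣ g 0 0 + g 1 0) :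
    PowerSeries.constantCoeff (serB E g (zX h E)) = 0 := by
  rw [zX, constantCoeff_zB]
  simp only [rowMul, one_mul, zero_mul, add_zero]
  have h1 := not_dvd_mul_unit h 1 one_pos (by have := m_lt h; have := h.three_le; omega) hg
  rw [Nat.cast_one, one_mul] at h1
  have h2 : ¬ (M : ℤ) ∣ (m : ℤ) * g 0 0 + g 1 0 := by
    intro hd
    rcases hg with hc | hc
    · exact not_dvd_mul_unit h m (by have := h.three_le; omega) (m_lt h) (Or.inl hc)
        ((dvd_add_left hc).mp hd)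
    · refine not_dvd_mul_unit h (m - 1) (by have := h.three_le; omega)
        (by have := m_lt h; omega) (Or.inr hc) ?_
      rw [Nat.cast_sub (by have := h.three_le; omega), Nat.cast_one,
        show ((m : ℤ) - 1) * g 0 0 = (m : ℤ) * g 0 0 + g 1 0 - (g 0 0 + g 1 0) by ring]
      exact dvd_sub hd hc
  rw [if_neg h1, if_neg h2, sub_zero]

theorem constantCoeff_mul_zY (g : SL(2, ℤ)) :
    PowerSeries.constantCoeff (serB E g (zX h E * zY h E)) = 0 := by
  rw [map_mul, map_mul]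
  by_cases hg : (M : ℤ) ∣ g 1 0 ∨ (M : ℤ) ∣ g 0 0 + g 1 0
  · rw [constantCoeff_zX h E hg, zero_mul]
  · rw [not_or] at hg
    rw [zY, constantCoeff_zB]
    simp only [rowMul, one_mul, zero_mul, zero_add]
    rw [if_neg hg.1, if_neg hg.2, sub_zero, mul_zero]

theorem coeff_one_pI (u : ℤ × ℤ) :
    PowerSeries.coeff 1 (pI E u) = (if (M : ℤ) ∣ 1 - u.1 then zO E u.2 else 0) +
      (if (M : ℤ) ∣ 1 + u.1 then zO E (-u.2) else 0) := by
  rw [pI, PowerSeries.coeff_mk]
  simp only [one_ne_zero, if_false, Nat.divisors_one, Finset.sum_singleton, Nat.cast_one,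
    Nat.div_one, one_mul, mul_one]

theorem coeff_one_zX {g : SL(2, ℤ)} (hc : (M : ℤ) ∣ g 1 0) :
    PowerSeries.coeff 1 (serB E g (zX h E)) =
      (if (M : ℤ) ∣ 1 - g 0 0 then zO E (g 0 1) else 0) +
      (if (M : ℤ) ∣ 1 + g 0 0 then zO E (-(g 0 1)) else 0) := by
  have hx := constantCoeff_zX h E (g := g) (Or.inl hc)
  rw [zX, serB_zB] at hx ⊢
  rw [map_mul, constantCoeff_cS, one_mul] at hx
  rw [PowerSeries.coeff_mul, Finset.Nat.sum_antidiagonal_succ, Finset.Nat.antidiagonal_zero,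
    Finset.sum_singleton]
  simp only [zero_add, PowerSeries.coeff_zero_eq_constantCoeff_apply, hx, mul_zero, add_zero,
    constantCoeff_cS, one_mul]
  rw [map_sub, coeff_one_pI, coeff_one_pI]
  simp only [rowMul, one_mul, zero_mul, add_zero]
  have hne : ∀ x : ℤ, (m : ℤ) ∣ x → ¬ (M : ℤ) ∣ 1 - x ∧ ¬ (M : ℤ) ∣ 1 + x := fun x hx =>
    ⟨fun hd => not_m_dvd_one h ((dvd_sub_left hx).mp ((dvd_level h).trans hd)),
      fun hd => not_m_dvd_one h ((dvd_add_left hx).mp ((dvd_level h).trans hd))⟩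
  obtain ⟨n1, n2⟩ := hne ((m : ℤ) * g 0 0 + g 1 0)
    (dvd_add (dvd_mul_right _ _) ((dvd_level h).trans hc))
  rw [if_neg n1, if_neg n2, add_zero, sub_zero]

include h in
/-- A function on the chart detecting the first column at the cusps over infinity. -/
theorem exists_column : ∃ y : cB E, evc E 1 y ≠ 0 ∧ ∀ g : SL(2, ℤ), (M : ℤ) ∣ g 1 0 →
    ¬ (M : ℤ) ∣ 1 - g 0 0 → ¬ (M : ℤ) ∣ 1 + g 0 0 → evc E g y = 0 := by
  set P : cB E := zX h E * zY h E with hP
  have hdvd : ∀ g, PowerSeries.X ∣ serB E g P := fun g =>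
    PowerSeries.X_dvd_iff.mpr (constantCoeff_mul_zY h E g)
  choose G hG using hdvd
  obtain ⟨U, hU⟩ := exists_wS (O := O) (M := M)
  have hser : ∀ g, serAt E g (((P : cB E) : Fld E) ^ M * jF E) = al (G g ^ M * ↑U⁻¹) := fun g => by
    have hw : serAt E g (jF E) = (al (wS O M))⁻¹ := by
      rw [← serAt_wF E g, map_inv₀, inv_inv]
    have hne : al (wS O M) ≠ 0 := by
      rw [Ne, map_eq_zero_iff _ (IsFractionRing.injective _ _), hU]
      exact mul_ne_zero (pow_ne_zero _ PowerSeries.X_ne_zero) U.ne_zero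
    rw [map_mul, map_pow, ← algebraMap_serB, hw, hG, mul_inv_eq_iff_eq_mul₀ hne, ← map_pow,
      ← map_mul, hU]
    congr 1
    rw [mul_pow, mul_assoc (G g ^ M), mul_left_comm (↑U⁻¹ : PowerSeries O), Units.inv_mul,
      mul_one, mul_comm]
  have hmem : ((P : cB E) : Fld E) ^ M * jF E ∈ cuspInt E := by
    refine ⟨fun g => ⟨G g ^ M * ↑U⁻¹, (hser g).symm⟩, ?_⟩
    · have hPmem : ((P : cB E) : Fld E) ∈ cuspInt E := by
        rw [hP, MulMemClass.coe_mul]
        exact mul_mem (zF_mem_cuspInt h E (nz10 h) (nzm1 h)) (zF_mem_cuspInt h E (nz01 h) (nz11 h))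
      obtain ⟨k, hk⟩ := hPmem.2
      refine ⟨k * M, ?_⟩
      rw [pow_mul, ← mul_assoc, ← mul_pow]
      exact mul_mem (pow_mem hk M) ⟨_, rfl⟩
  set Y : cB E := ⟨_, mem_chartRing_of_cuspInt E hmem⟩ with hY
  refine ⟨Y, ?_⟩
  have hev : ∀ g, evc E g Y =
      residue O (PowerSeries.coeff 1 (serB E g P)) ^ M *
        residue O (PowerSeries.constantCoeff (↑U⁻¹ : PowerSeries O)) := fun g => by
    have hY' : serB E g Y = G g ^ M * ↑U⁻¹ := serB_eq E (x := Y) (hser g)
    simp only [evc, RingHom.comp_apply]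
    rw [hY', map_mul, map_pow, map_mul, map_pow, hG g, PowerSeries.coeff_succ_X_mul,
      PowerSeries.coeff_zero_eq_constantCoeff_apply]
  have hcoef : ∀ g : SL(2, ℤ), (M : ℤ) ∣ g 1 0 → PowerSeries.coeff 1 (serB E g P) =
      PowerSeries.coeff 1 (serB E g (zX h E)) *
        PowerSeries.constantCoeff (serB E g (zY h E)) := fun g hc => by
    rw [hP, map_mul, PowerSeries.coeff_mul, Finset.Nat.sum_antidiagonal_succ,
      Finset.Nat.antidiagonal_zero, Finset.sum_singleton]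
    simp only [zero_add, PowerSeries.coeff_zero_eq_constantCoeff_apply,
      constantCoeff_zX h E (g := g) (Or.inl hc), zero_mul]
  refine ⟨?_, fun g hc n1 n2 => ?_⟩
  · have hm := m_lt h
    have h3 := h.three_le
    have hM2 : ¬ (M : ℤ) ∣ 2 := by exact_mod_cast not_M_dvd h (k := 2) two_pos (by omega)
    have hM1 : ¬ (M : ℤ) ∣ 1 := by exact_mod_cast not_M_dvd h (k := 1) one_pos (by omega)
    rw [hev, hcoef 1 (by simp), coeff_one_zX h E (by simp)]
    refine mul_ne_zero (pow_ne_zero _ ?_)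
      (((PowerSeries.isUnit_constantCoeff _ U⁻¹.isUnit).map (residue O)).ne_zero)
    rw [map_mul]
    refine mul_ne_zero ?_ ?_
    · simp [hM2, zO_zero]
    · rw [zY, constantCoeff_zB]
      simp [rowMul, hM1, residue_phiO_ne_zero h E (not_m_dvd_one h)]
  · rw [hev, hcoef g hc, coeff_one_zX h E hc, if_neg n1, if_neg n2, add_zero, zero_mul,
      map_zero, zero_pow (NeZero.ne M), zero_mul]

include h in
/-- The cusp at infinity is fixed only by `± Tⁿ`. -/
theorem exists_pow_of_evc_eq {g : SL(2, ℤ)} (he : evc E g = evc E 1) :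
    ∃ n : Fin M, red M g = red M (ModularGroup.T ^ (n : ℤ)) ∨
      red M (-g) = red M (ModularGroup.T ^ (n : ℤ)) := by
  have hM1 : ¬ (M : ℤ) ∣ 1 := by
    exact_mod_cast not_M_dvd h (k := 1) one_pos
      (by have := m_lt h; have := h.three_le; omega)
  have e1 := RingHom.congr_fun he (zB h E _ _ (nz01 h) (nz10 h))
  have e2 := RingHom.congr_fun he (zB h E _ _ (nz01 h) (nz11 h))
  rw [evc_zB, evc_zB] at e1 e2
  simp only [c0, rowMul, zero_mul, one_mul, zero_add, add_zero, Matrix.SpecialLinearGroup.coe_one,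
    Matrix.one_apply_eq, Matrix.one_apply_ne (show (1 : Fin 2) ≠ 0 by decide),
    Matrix.one_apply_ne (show (0 : Fin 2) ≠ 1 by decide), dvd_zero, if_true, hM1, if_false,
    sub_zero] at e1 e2
  have hne := residue_phiO_ne_zero h E (not_m_dvd_one h)
  have hc : (M : ℤ) ∣ g 1 0 := by
    by_contra hc
    rw [if_neg hc] at e1 e2
    by_cases ha : (M : ℤ) ∣ g 0 0
    · by_cases hac : (M : ℤ) ∣ g 0 0 + g 1 0
      · exact hc ((dvd_add_right ha).mp hac)
      · rw [if_neg hac, sub_zero] at e2; exact hne e2.symm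
    · rw [if_neg ha, sub_zero] at e1; exact hne e1.symm
  suffices main : ∀ g' : SL(2, ℤ), (M : ℤ) ∣ g' 1 0 → (M : ℤ) ∣ 1 - g' 0 0 →
      ∃ n : Fin M, red M g' = red M (ModularGroup.T ^ (n : ℤ)) by
    obtain ⟨y, hy1, hy⟩ := exists_column h E
    by_cases n1 : (M : ℤ) ∣ 1 - g 0 0
    · obtain ⟨n, hn⟩ := main g hc n1
      exact ⟨n, Or.inl hn⟩
    · by_cases n2 : (M : ℤ) ∣ 1 + g 0 0
      · obtain ⟨n, hn⟩ := main (-g) (by simpa using hc) (by simpa using n2)
        exact ⟨n, Or.inr hn⟩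
      · exact absurd (by rw [← he]; exact hy g hc n1 n2) hy1
  intro g hc ha
  have haM : (M : ℤ) ∣ g 0 0 - 1 := by rwa [← dvd_neg, neg_sub]
  have hdM : (M : ℤ) ∣ g 1 1 - 1 := by
    have hdet := g.det_coe
    rw [Matrix.det_fin_two] at hdet
    rw [show g 1 1 - 1 = g 0 1 * g 1 0 - (g 0 0 - 1) * g 1 1 by linarith]
    exact dvd_sub (hc.mul_left _) (haM.mul_right _)
  refine ⟨⟨((g 0 1 : ℤ) : ZMod M).val, ZMod.val_lt _⟩, Subtype.ext ?_⟩
  ext i j
  show ((g i j : ℤ) : ZMod M) = (((ModularGroup.T ^ ((((g 0 1 : ℤ) : ZMod M).val : ℕ) : ℤ) :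
    SL(2, ℤ)) i j : ℤ) : ZMod M)
  rw [ModularGroup.coe_T_zpow]
  have hz : ∀ x : ℤ, (M : ℤ) ∣ x → (x : ZMod M) = 0 := fun x hx =>
    (ZMod.intCast_zmod_eq_zero_iff_dvd _ M).mpr hx
  fin_cases i <;> fin_cases j
  · have := hz _ haM
    push_cast at this
    simpa [sub_eq_zero] using this
  · simp
  · simpa using hz _ hc
  · have := hz _ hdM
    push_cast at this
    simpa [sub_eq_zero] using this

include h in
/-- The uniformiser at infinity. -/
theorem exists_parameter :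
    ∃ x : cB E, ∃ V : (PowerSeries (ResidueField O))ˣ,
      PowerSeries.map (residue O) (serB E 1 x) =
        PowerSeries.X * (V : PowerSeries (ResidueField O)) := by
  set f := PowerSeries.map (residue O) (serB E 1 (zX h E)) with hf
  have hf0 : PowerSeries.constantCoeff f = 0 := by
    rw [hf, ← PowerSeries.coeff_zero_eq_constantCoeff_apply, PowerSeries.coeff_map,
      PowerSeries.coeff_zero_eq_constantCoeff_apply,
      constantCoeff_zX h E (g := 1) (Or.inl (by simp)), map_zero]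
  obtain ⟨v, hv⟩ := PowerSeries.X_dvd_iff.mpr hf0
  have hv0 : IsUnit v := by
    rw [PowerSeries.isUnit_iff_constantCoeff]
    have e : PowerSeries.constantCoeff v = PowerSeries.coeff 1 f := by
      rw [hv, PowerSeries.coeff_succ_X_mul, PowerSeries.coeff_zero_eq_constantCoeff_apply]
    have hM2 : ¬ (M : ℤ) ∣ 2 := by
      exact_mod_cast not_M_dvd h (k := 2) two_pos (by have := m_lt h; have := h.three_le; omega)
    rw [e, hf, PowerSeries.coeff_map, coeff_one_zX h E (by simp)]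
    simp [hM2, zO_zero]
  exact ⟨_, hv0.unit, hv⟩

end Fermat.Agent.Carayol.CuspQ
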